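/-
S20 package K (helper46): eigenvector counting for permutation operators.

Setting: `X` a finite set, `σ : Equiv.Perm X`, acting on functions `X → ℂ` by precomposition.
If `v : J → X → ℂ` is a family of `|X|` linearly independent eigenfunctions,
`v j (σ x) = ε j * v j x`, then the number of `j` with a prescribed eigenvalue is determined by
the numbers of fixed points of the powers of `σ`.

Main results (all cardinalities are `Nat.card`, so no decidability/fintype instance clutter):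
* `sum_pow_eq_card_fixed`      : `∑ j, ε j ^ k = #Fix (σ ^ k)`
* `card_eigenvalue_eq`         : `n * #{j | ε j = ζ} = ∑ k < n, ζ⁻¹ ^ k * #Fix (σ ^ k)` if `σ ^ n = 1`
* `two_mul_card_eigenvalue_one`, `two_mul_card_eigenvalue_neg_one`       (`σ ^ 2 = 1`)
* `three_mul_card_eigenvalue_one`, `three_mul_card_eigenvalue_prim`     (`σ ^ 3 = 1`)
* group-action versions `..._smul` with `Nat.card (MulAction.fixedBy X g)`
* weight versions: eigenvalues `ξ ^ a j` with `ξ` a primitive 4th resp. 6th root of unity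
* for `X = SL(2, ℤ) ⧸ Gamma0 N`: `S`, `S⁻¹` act with square one; `S * T`, `(S * T)⁻¹` with cube one.
-/
import Mathlib

namespace Fermat.Agent.S20.H46

open scoped BigOperators

section General

/-- The trace of the operator `f ↦ f ∘ σ` on `X → ℂ` is the number of fixed points of `σ`. -/
theorem trace_funLeft_eq_card {X : Type*} [Fintype X] [DecidableEq X] (σ : X → X) :
    LinearMap.trace ℂ (X → ℂ) (LinearMap.funLeft ℂ ℂ σ) = (Nat.card {x // σ x = x} : ℂ) := by
  classical
  rw [LinearMap.trace_eq_matrix_trace ℂ (Pi.basisFun ℂ X), LinearMap.toMatrix_eq_toMatrix',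
    Matrix.trace]
  simp only [Matrix.diag_apply, LinearMap.toMatrix'_apply, LinearMap.funLeft_apply]
  rw [Nat.card_eq_fintype_card, Fintype.card_subtype, Finset.card_filter]
  push_cast
  refine Finset.sum_congr rfl fun x _ => ?_
  simp [Pi.single_apply]

/-- If `b` is a basis of eigenvectors of `f`, the trace of `f` is the sum of the eigenvalues. -/
theorem sum_eigenvalues_eq_trace {V : Type*} [AddCommGroup V] [Module ℂ V] {J : Type*}
    [Fintype J] [DecidableEq J] (b : Module.Basis J ℂ V) (f : V →ₗ[ℂ] V) (ε : J → ℂ)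
    (h : ∀ j, f (b j) = ε j • b j) :
    ∑ j, ε j = LinearMap.trace ℂ V f := by
  rw [LinearMap.trace_eq_matrix_trace ℂ b, Matrix.trace]
  refine Finset.sum_congr rfl fun j _ => ?_
  simp [LinearMap.toMatrix_apply, h]

/-- Iterating the eigenvalue equation. -/
theorem eigen_pow {X J : Type*} (σ : Equiv.Perm X) (v : J → X → ℂ) (ε : J → ℂ)
    (h : ∀ j x, v j (σ x) = ε j * v j x) (k : ℕ) (j : J) (x : X) :
    v j ((σ ^ k) x) = ε j ^ k * v j x := by
  induction k generalizing x with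
  | zero => simp
  | succ k ih => rw [pow_succ, Equiv.Perm.mul_apply, ih, h]; ring

/-- **Key identity.** If `v` is a family of `|X|` linearly independent eigenfunctions of the
permutation operator `f ↦ f ∘ σ`, with eigenvalues `ε j`, then the `k`-th power sum of the
eigenvalues is the number of fixed points of `σ ^ k`. -/
theorem sum_pow_eq_card_fixed {X J : Type*} [Finite X] [Fintype J] (σ : Equiv.Perm X)
    (v : J → X → ℂ) (hv : LinearIndependent ℂ v) (hcard : Nat.card J = Nat.card X) (ε : J → ℂ)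
    (h : ∀ j x, v j (σ x) = ε j * v j x) (k : ℕ) :
    ∑ j, ε j ^ k = (Nat.card {x // (σ ^ k) x = x} : ℂ) := by
  classical
  have := Fintype.ofFinite X
  have hc : Fintype.card J = Module.finrank ℂ (X → ℂ) := by
    rw [Module.finrank_pi, ← Nat.card_eq_fintype_card, ← Nat.card_eq_fintype_card, hcard]
  let b : Module.Basis J ℂ (X → ℂ) := basisOfLinearIndependentOfCardEqFinrank' v hv hc
  have hb : ∀ j, b j = v j := fun j => by simp [b]
  rw [← trace_funLeft_eq_card, ← sum_eigenvalues_eq_trace b _ (fun j => ε j ^ k)]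
  intro j
  ext x
  simp [hb, LinearMap.funLeft_apply, eigen_pow σ v ε h k j x]

/-- Eigenvalues of a permutation operator of order dividing `n` are `n`-th roots of unity. -/
theorem eigenvalue_pow_eq_one {X J : Type*} (σ : Equiv.Perm X) (v : J → X → ℂ)
    (hv : LinearIndependent ℂ v) (ε : J → ℂ)
    (h : ∀ j x, v j (σ x) = ε j * v j x) {n : ℕ} (hn : σ ^ n = 1) (j : J) :
    ε j ^ n = 1 := by
  have hne : v j ≠ 0 := hv.ne_zero j
  obtain ⟨x, hx⟩ : ∃ x, v j x ≠ 0 := by
    by_contra hcon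
    exact hne (funext fun x => not_not.mp fun hx => hcon ⟨x, hx⟩)
  have h1 := eigen_pow σ v ε h n j x
  rw [hn, Equiv.Perm.one_apply] at h1
  have h2 : (ε j ^ n - 1) * v j x = 0 := by rw [sub_mul, ← h1]; ring
  rcases mul_eq_zero.mp h2 with h3 | h3
  · exact sub_eq_zero.mp h3
  · exact absurd h3 hx

/-- **Eigenvalue counting, general order.** If `σ ^ n = 1` and `ζ ^ n = 1`, then
`n * #{j | ε j = ζ} = ∑_{k < n} ζ⁻ᵏ * #Fix (σ ^ k)`. -/
theorem card_eigenvalue_eq {X J : Type*} [Finite X] [Finite J] (σ : Equiv.Perm X)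
    (v : J → X → ℂ) (hv : LinearIndependent ℂ v) (hcard : Nat.card J = Nat.card X) (ε : J → ℂ)
    (h : ∀ j x, v j (σ x) = ε j * v j x) {n : ℕ} (hn : σ ^ n = 1) (ζ : ℂ)
    (hζ : ζ ^ n = 1) (hn0 : n ≠ 0) :
    (n : ℂ) * (Nat.card {j // ε j = ζ} : ℂ) =
      ∑ k ∈ Finset.range n, (ζ⁻¹) ^ k * (Nat.card {x // (σ ^ k) x = x} : ℂ) := by
  classical
  have := Fintype.ofFinite J
  have hζ0 : ζ ≠ 0 := by
    rintro rfl
    rw [zero_pow hn0] at hζ
    exact zero_ne_one hζ
  have key : ∀ j, ∑ k ∈ Finset.range n, (ζ⁻¹ * ε j) ^ k = if ε j = ζ then (n : ℂ) else 0 := by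
    intro j
    split_ifs with hj
    · rw [hj, inv_mul_cancel₀ hζ0]; simp
    · have hw : ζ⁻¹ * ε j ≠ 1 := by
        intro hw
        apply hj
        field_simp at hw
        exact hw
      rw [geom_sum_eq hw, mul_pow, inv_pow, hζ, eigenvalue_pow_eq_one σ v hv ε h hn j]
      simp
  calc (n : ℂ) * (Nat.card {j // ε j = ζ} : ℂ)
      = ∑ j, if ε j = ζ then (n : ℂ) else 0 := by
        rw [Nat.card_eq_fintype_card, Fintype.card_subtype, Finset.sum_ite, Finset.sum_const,
          Finset.sum_const_zero, add_zero, nsmul_eq_mul, mul_comm]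
    _ = ∑ j, ∑ k ∈ Finset.range n, (ζ⁻¹ * ε j) ^ k := by
        simp_rw [key]
    _ = ∑ k ∈ Finset.range n, (ζ⁻¹) ^ k * ∑ j, ε j ^ k := by
        rw [Finset.sum_comm]
        refine Finset.sum_congr rfl fun k _ => ?_
        rw [Finset.mul_sum]
        refine Finset.sum_congr rfl fun j _ => ?_
        rw [mul_pow]
    _ = _ := by
        refine Finset.sum_congr rfl fun k _ => ?_
        rw [sum_pow_eq_card_fixed σ v hv hcard ε h k]

/-! ### Fixed points of powers and inverses -/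

theorem card_fixed_pow_zero {X : Type*} (σ : Equiv.Perm X) :
    Nat.card {x // (σ ^ 0) x = x} = Nat.card X :=
  Nat.card_congr (Equiv.subtypeUnivEquiv (fun x => by simp))

theorem card_fixed_pow_one {X : Type*} (σ : Equiv.Perm X) :
    Nat.card {x // (σ ^ 1) x = x} = Nat.card {x // σ x = x} := by
  rw [pow_one]

/-- `σ⁻¹` and `σ` have the same fixed points. -/
theorem card_fixed_inv {X : Type*} (σ : Equiv.Perm X) :
    Nat.card {x // σ⁻¹ x = x} = Nat.card {x // σ x = x} :=
  Nat.card_congr (Equiv.subtypeEquivRight fun x => by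
    rw [Equiv.Perm.inv_eq_iff_eq]; exact eq_comm)

theorem card_fixed_sq_of_cube {X : Type*} (σ : Equiv.Perm X) (hσ : σ ^ 3 = 1) :
    Nat.card {x // (σ ^ 2) x = x} = Nat.card {x // σ x = x} := by
  have h2 : σ ^ 2 = σ⁻¹ := by
    rw [eq_inv_iff_mul_eq_one, ← pow_succ]; exact hσ
  rw [h2, card_fixed_inv]

/-! ### Involutions -/

section Two

variable {X J : Type*} [Finite X] [Finite J] (σ : Equiv.Perm X) (v : J → X → ℂ)
  (hv : LinearIndependent ℂ v) (hcard : Nat.card J = Nat.card X) (ε : J → ℂ)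
  (h : ∀ j x, v j (σ x) = ε j * v j x) (hσ : σ ^ 2 = 1)

include hv hcard h hσ

/-- **K2, eigenvalue `1`.** For an involution `σ`: `2 * #{j | ε j = 1} = |X| + #Fix σ`. -/
theorem two_mul_card_eigenvalue_one :
    2 * Nat.card {j // ε j = 1} = Nat.card X + Nat.card {x // σ x = x} := by
  have key := card_eigenvalue_eq σ v hv hcard ε h hσ 1 (one_pow 2) two_ne_zero
  rw [Finset.sum_range_succ, Finset.sum_range_one, card_fixed_pow_zero, card_fixed_pow_one]
    at key
  have key' : ((2 * Nat.card {j // ε j = 1} : ℕ) : ℂ)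
      = ((Nat.card X + Nat.card {x // σ x = x} : ℕ) : ℂ) := by
    push_cast
    rw [inv_one] at key
    linear_combination key
  exact_mod_cast key'

/-- **K2, eigenvalue `-1`.** For an involution `σ`: `2 * #{j | ε j = -1} + #Fix σ = |X|`. -/
theorem two_mul_card_eigenvalue_neg_one :
    2 * Nat.card {j // ε j = -1} + Nat.card {x // σ x = x} = Nat.card X := by
  have key := card_eigenvalue_eq σ v hv hcard ε h hσ (-1) (by norm_num) two_ne_zero
  rw [Finset.sum_range_succ, Finset.sum_range_one, card_fixed_pow_zero, card_fixed_pow_one]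
    at key
  have h1 : ((-1 : ℂ))⁻¹ = -1 := by norm_num
  rw [h1] at key
  have key' : ((2 * Nat.card {j // ε j = -1} + Nat.card {x // σ x = x} : ℕ) : ℂ)
      = (Nat.card X : ℂ) := by
    push_cast
    linear_combination key
  exact_mod_cast key'

omit [Finite X] [Finite J] hcard in
/-- The eigenvalues of an involution are `1` or `-1`. -/
theorem eigenvalue_eq_one_or_neg_one (j : J) : ε j = 1 ∨ ε j = -1 := by
  have := eigenvalue_pow_eq_one σ v hv ε h hσ j
  have h2 : (ε j - 1) * (ε j + 1) = 0 := by linear_combination this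
  rcases mul_eq_zero.mp h2 with h3 | h3
  · left; linear_combination h3
  · right; linear_combination h3

end Two

/-! ### Order three -/

section Three

variable {X J : Type*} [Finite X] [Finite J] (σ : Equiv.Perm X) (v : J → X → ℂ)
  (hv : LinearIndependent ℂ v) (hcard : Nat.card J = Nat.card X) (ε : J → ℂ)
  (h : ∀ j x, v j (σ x) = ε j * v j x) (hσ : σ ^ 3 = 1)

include hv hcard h hσ

/-- **K3, eigenvalue `1`.** If `σ ^ 3 = 1`: `3 * #{j | ε j = 1} = |X| + 2 * #Fix σ`. -/
theorem three_mul_card_eigenvalue_one :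
    3 * Nat.card {j // ε j = 1} = Nat.card X + 2 * Nat.card {x // σ x = x} := by
  have key := card_eigenvalue_eq σ v hv hcard ε h hσ 1 (one_pow 3) three_ne_zero
  rw [Finset.sum_range_succ, Finset.sum_range_succ, Finset.sum_range_one, card_fixed_pow_zero,
    card_fixed_pow_one, card_fixed_sq_of_cube σ hσ, inv_one] at key
  have key' : ((3 * Nat.card {j // ε j = 1} : ℕ) : ℂ)
      = ((Nat.card X + 2 * Nat.card {x // σ x = x} : ℕ) : ℂ) := by
    push_cast
    linear_combination key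
  exact_mod_cast key'

/-- **K3, primitive eigenvalue.** If `σ ^ 3 = 1` and `ω` is a primitive cube root of unity:
`3 * #{j | ε j = ω} + #Fix σ = |X|`. -/
theorem three_mul_card_eigenvalue_prim (ω : ℂ) (hω : ω ^ 3 = 1) (hω1 : ω ≠ 1) :
    3 * Nat.card {j // ε j = ω} + Nat.card {x // σ x = x} = Nat.card X := by
  have key := card_eigenvalue_eq σ v hv hcard ε h hσ ω hω three_ne_zero
  rw [Finset.sum_range_succ, Finset.sum_range_succ, Finset.sum_range_one, card_fixed_pow_zero,
    card_fixed_pow_one, card_fixed_sq_of_cube σ hσ] at key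
  have hquad : ω ^ 2 + ω + 1 = 0 := by
    have h3 : (ω - 1) * (ω ^ 2 + ω + 1) = 0 := by linear_combination hω
    rcases mul_eq_zero.mp h3 with h4 | h4
    · exact absurd (sub_eq_zero.mp h4) hω1
    · exact h4
  have hinv : ω⁻¹ = ω ^ 2 := inv_eq_of_mul_eq_one_right (by linear_combination hω)
  rw [hinv] at key
  have key' : ((3 * Nat.card {j // ε j = ω} + Nat.card {x // σ x = x} : ℕ) : ℂ)
      = (Nat.card X : ℂ) := by
    push_cast
    linear_combination key + (Nat.card {x // σ x = x} : ℂ) * hquad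
      + (Nat.card {x // σ x = x} : ℂ) * ω * hω
  exact_mod_cast key'

end Three

end General

/-! ### Group-action versions -/

section Action

variable {G X J : Type*} [Group G] [MulAction G X]

theorem card_fixed_toPerm (g : G) :
    Nat.card {x : X // MulAction.toPerm g x = x} = Nat.card (MulAction.fixedBy X g) :=
  Nat.card_congr (Equiv.subtypeEquivRight fun x => by
    rw [MulAction.toPerm_apply, MulAction.mem_fixedBy])

/-- `g⁻¹` and `g` have the same number of fixed points. -/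
theorem card_fixedBy_inv (g : G) :
    Nat.card (MulAction.fixedBy X g⁻¹) = Nat.card (MulAction.fixedBy X g) := by
  rw [MulAction.fixedBy_inv]

theorem toPerm_pow_eq_one (g : G) (n : ℕ) (hg : ∀ x : X, g ^ n • x = x) :
    (MulAction.toPerm g : Equiv.Perm X) ^ n = 1 := by
  ext x
  have : (MulAction.toPerm g : Equiv.Perm X) ^ n = MulAction.toPerm (g ^ n) :=
    (map_pow (MulAction.toPermHom G X) g n).symm
  rw [this, MulAction.toPerm_apply, hg, Equiv.Perm.one_apply]

variable [Finite X] [Finite J] (g : G) (v : J → X → ℂ)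
  (hv : LinearIndependent ℂ v) (hcard : Nat.card J = Nat.card X) (ε : J → ℂ)
  (h : ∀ j x, v j (g • x) = ε j * v j x)

include hv hcard h

theorem two_mul_card_eigenvalue_one_smul (hg : ∀ x : X, g ^ 2 • x = x) :
    2 * Nat.card {j // ε j = 1} = Nat.card X + Nat.card (MulAction.fixedBy X g) := by
  rw [← card_fixed_toPerm]
  exact two_mul_card_eigenvalue_one (MulAction.toPerm g) v hv hcard ε h (toPerm_pow_eq_one g 2 hg)

theorem two_mul_card_eigenvalue_neg_one_smul (hg : ∀ x : X, g ^ 2 • x = x) :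
    2 * Nat.card {j // ε j = -1} + Nat.card (MulAction.fixedBy X g) = Nat.card X := by
  rw [← card_fixed_toPerm]
  exact two_mul_card_eigenvalue_neg_one (MulAction.toPerm g) v hv hcard ε h
    (toPerm_pow_eq_one g 2 hg)

theorem three_mul_card_eigenvalue_one_smul (hg : ∀ x : X, g ^ 3 • x = x) :
    3 * Nat.card {j // ε j = 1} = Nat.card X + 2 * Nat.card (MulAction.fixedBy X g) := by
  rw [← card_fixed_toPerm]
  exact three_mul_card_eigenvalue_one (MulAction.toPerm g) v hv hcard ε h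
    (toPerm_pow_eq_one g 3 hg)

theorem three_mul_card_eigenvalue_prim_smul (hg : ∀ x : X, g ^ 3 • x = x) (ω : ℂ)
    (hω : ω ^ 3 = 1) (hω1 : ω ≠ 1) :
    3 * Nat.card {j // ε j = ω} + Nat.card (MulAction.fixedBy X g) = Nat.card X := by
  rw [← card_fixed_toPerm]
  exact three_mul_card_eigenvalue_prim (MulAction.toPerm g) v hv hcard ε h
    (toPerm_pow_eq_one g 3 hg) ω hω hω1

end Action

/-! ### Weight versions: eigenvalues `ξ ^ a j` for a primitive 4th / 6th root of unity `ξ` -/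

theorem isPrimitiveRoot_four_of_sq {ξ : ℂ} (hξ : ξ ^ 2 = -1) : IsPrimitiveRoot ξ 4 := by
  refine IsPrimitiveRoot.mk_of_lt ξ (by norm_num) (by linear_combination (ξ ^ 2 - 1) * hξ) ?_
  intro l hl0 hl4 hl
  interval_cases l
  · rw [pow_one] at hl
    rw [hl] at hξ
    norm_num at hξ
  · rw [hξ] at hl
    norm_num at hl
  · have : ξ = -1 := by linear_combination ξ * hξ - hl
    rw [this] at hξ
    norm_num at hξ

theorem isPrimitiveRoot_six_of_quad {ξ : ℂ} (hξ : ξ ^ 2 - ξ + 1 = 0) : IsPrimitiveRoot ξ 6 := by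
  have h3 : ξ ^ 3 = -1 := by linear_combination (ξ + 1) * hξ
  have h2 : ξ ^ 2 = ξ - 1 := by linear_combination hξ
  refine IsPrimitiveRoot.mk_of_lt ξ (by norm_num) (by linear_combination (ξ ^ 3 - 1) * h3) ?_
  intro l hl0 hl6 hl
  interval_cases l
  · rw [pow_one] at hl
    rw [hl] at hξ
    norm_num at hξ
  · have : ξ = 2 := by linear_combination hl - h2
    rw [this] at hξ
    norm_num at hξ
  · rw [h3] at hl
    norm_num at hl
  · have : ξ = -1 := by linear_combination -hl + ξ * h3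
    rw [this] at hξ
    norm_num at hξ
  · have : ξ = 0 := by linear_combination -hl + ξ ^ 2 * h3 - h2
    rw [this] at hξ
    norm_num at hξ

/-- For a primitive `n`-th root of unity, `ξ ^ a = ξ ^ r ↔ n ∣ a - r`. -/
theorem zpow_eq_pow_iff_dvd_sub {ξ : ℂ} {n : ℕ} (hn : n ≠ 0) (hp : IsPrimitiveRoot ξ n) (a : ℤ)
    (r : ℕ) : ξ ^ a = ξ ^ r ↔ (n : ℤ) ∣ a - r := by
  have hξ0 : ξ ≠ 0 := hp.ne_zero hn
  rw [← hp.zpow_eq_one_iff_dvd, zpow_sub₀ hξ0, zpow_natCast,
    div_eq_one_iff_eq (pow_ne_zero r hξ0)]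

section Weights

variable {X J : Type*} [Finite X] [Finite J] (σ : Equiv.Perm X) (v : J → X → ℂ)
  (hv : LinearIndependent ℂ v) (hcard : Nat.card J = Nat.card X) (ξ : ℂ) (a : J → ℤ)
  (h : ∀ j x, v j (σ x) = ξ ^ a j * v j x)

include hv hcard h

/-- **Weights mod 4.** If `σ ^ 2 = 1`, `ξ` is a primitive 4th root of unity and the `v j` are
eigenfunctions with eigenvalues `ξ ^ a j`, then `2 * #{j | 4 ∣ a j} = |X| + #Fix σ`. -/
theorem two_mul_card_four_dvd (hσ : σ ^ 2 = 1) (hξ : ξ ^ 2 = -1) :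
    2 * Nat.card {j // (4 : ℤ) ∣ a j} = Nat.card X + Nat.card {x // σ x = x} := by
  have hp := isPrimitiveRoot_four_of_sq hξ
  rw [← two_mul_card_eigenvalue_one σ v hv hcard (fun j => ξ ^ a j) h hσ]
  congr 1
  exact Nat.card_congr (Equiv.subtypeEquivRight fun j => (hp.zpow_eq_one_iff_dvd (a j)).symm)

/-- **Weights mod 4.** `2 * #{j | a j ≡ 2 mod 4} + #Fix σ = |X|`. -/
theorem two_mul_card_mod_four_eq_two (hσ : σ ^ 2 = 1) (hξ : ξ ^ 2 = -1) :
    2 * Nat.card {j // a j % 4 = 2} + Nat.card {x // σ x = x} = Nat.card X := by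
  have hp := isPrimitiveRoot_four_of_sq hξ
  rw [← two_mul_card_eigenvalue_neg_one σ v hv hcard (fun j => ξ ^ a j) h hσ]
  congr 2
  refine Nat.card_congr (Equiv.subtypeEquivRight fun j => ?_)
  rw [← hξ, zpow_eq_pow_iff_dvd_sub (by norm_num) hp]
  push_cast
  omega

omit [Finite X] [Finite J] hcard in
/-- The weights are even: `a j ≡ 0` or `2 mod 4`. -/
theorem weight_mod_four (hσ : σ ^ 2 = 1) (hξ : ξ ^ 2 = -1) (j : J) :
    a j % 4 = 0 ∨ a j % 4 = 2 := by
  have hp := isPrimitiveRoot_four_of_sq hξ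
  rcases eigenvalue_eq_one_or_neg_one σ v hv (fun j => ξ ^ a j) h hσ j with h1 | h1
  · left
    have := (hp.zpow_eq_one_iff_dvd (a j)).mp h1
    omega
  · right
    have h2 : ξ ^ a j = ξ ^ 2 := by rw [hξ]; exact h1
    have := (zpow_eq_pow_iff_dvd_sub (by norm_num) hp (a j) 2).mp h2
    push_cast at this
    omega

/-- **Weights mod 6.** If `σ ^ 3 = 1`, `ξ` is a primitive 6th root of unity and the `v j` are
eigenfunctions with eigenvalues `ξ ^ a j`, then `3 * #{j | 6 ∣ a j} = |X| + 2 * #Fix σ`. -/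
theorem three_mul_card_six_dvd (hσ : σ ^ 3 = 1) (hξ : ξ ^ 2 - ξ + 1 = 0) :
    3 * Nat.card {j // (6 : ℤ) ∣ a j} = Nat.card X + 2 * Nat.card {x // σ x = x} := by
  have hp := isPrimitiveRoot_six_of_quad hξ
  rw [← three_mul_card_eigenvalue_one σ v hv hcard (fun j => ξ ^ a j) h hσ]
  congr 1
  exact Nat.card_congr (Equiv.subtypeEquivRight fun j => (hp.zpow_eq_one_iff_dvd (a j)).symm)

/-- **Weights mod 6.** `3 * #{j | a j ≡ 2 mod 6} + #Fix σ = |X|`. -/
theorem three_mul_card_mod_six_eq_two (hσ : σ ^ 3 = 1) (hξ : ξ ^ 2 - ξ + 1 = 0) :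
    3 * Nat.card {j // a j % 6 = 2} + Nat.card {x // σ x = x} = Nat.card X := by
  have hp := isPrimitiveRoot_six_of_quad hξ
  have h3 : ξ ^ 3 = -1 := by linear_combination (ξ + 1) * hξ
  rw [← three_mul_card_eigenvalue_prim σ v hv hcard (fun j => ξ ^ a j) h hσ (ξ ^ 2)
    (by linear_combination (ξ ^ 3 - 1) * h3) (hp.pow_ne_one_of_pos_of_lt (by norm_num) (by norm_num))]
  congr 2
  refine Nat.card_congr (Equiv.subtypeEquivRight fun j => ?_)
  rw [zpow_eq_pow_iff_dvd_sub (by norm_num) hp]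
  push_cast
  omega

/-- **Weights mod 6.** `3 * #{j | a j ≡ 4 mod 6} + #Fix σ = |X|`. -/
theorem three_mul_card_mod_six_eq_four (hσ : σ ^ 3 = 1) (hξ : ξ ^ 2 - ξ + 1 = 0) :
    3 * Nat.card {j // a j % 6 = 4} + Nat.card {x // σ x = x} = Nat.card X := by
  have hp := isPrimitiveRoot_six_of_quad hξ
  have h3 : ξ ^ 3 = -1 := by linear_combination (ξ + 1) * hξ
  rw [← three_mul_card_eigenvalue_prim σ v hv hcard (fun j => ξ ^ a j) h hσ (ξ ^ 4)
    (by linear_combination (ξ ^ 9 - ξ ^ 6 + ξ ^ 3 - 1) * h3)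
    (hp.pow_ne_one_of_pos_of_lt (by norm_num) (by norm_num))]
  congr 2
  refine Nat.card_congr (Equiv.subtypeEquivRight fun j => ?_)
  rw [zpow_eq_pow_iff_dvd_sub (by norm_num) hp]
  push_cast
  omega

end Weights

/-! ### Weight versions for group actions -/

section WeightsAction

variable {G X J : Type*} [Group G] [MulAction G X] [Finite X] [Finite J] (g : G)
  (v : J → X → ℂ) (hv : LinearIndependent ℂ v) (hcard : Nat.card J = Nat.card X) (ξ : ℂ)
  (a : J → ℤ) (h : ∀ j x, v j (g • x) = ξ ^ a j * v j x)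

include hv hcard h

theorem two_mul_card_four_dvd_smul (hg : ∀ x : X, g ^ 2 • x = x) (hξ : ξ ^ 2 = -1) :
    2 * Nat.card {j // (4 : ℤ) ∣ a j} = Nat.card X + Nat.card (MulAction.fixedBy X g) := by
  rw [← card_fixed_toPerm]
  exact two_mul_card_four_dvd (MulAction.toPerm g) v hv hcard ξ a h (toPerm_pow_eq_one g 2 hg) hξ

theorem two_mul_card_mod_four_eq_two_smul (hg : ∀ x : X, g ^ 2 • x = x) (hξ : ξ ^ 2 = -1) :
    2 * Nat.card {j // a j % 4 = 2} + Nat.card (MulAction.fixedBy X g) = Nat.card X := by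
  rw [← card_fixed_toPerm]
  exact two_mul_card_mod_four_eq_two (MulAction.toPerm g) v hv hcard ξ a h
    (toPerm_pow_eq_one g 2 hg) hξ

theorem three_mul_card_six_dvd_smul (hg : ∀ x : X, g ^ 3 • x = x) (hξ : ξ ^ 2 - ξ + 1 = 0) :
    3 * Nat.card {j // (6 : ℤ) ∣ a j} = Nat.card X + 2 * Nat.card (MulAction.fixedBy X g) := by
  rw [← card_fixed_toPerm]
  exact three_mul_card_six_dvd (MulAction.toPerm g) v hv hcard ξ a h (toPerm_pow_eq_one g 3 hg) hξ

theorem three_mul_card_mod_six_eq_two_smul (hg : ∀ x : X, g ^ 3 • x = x)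
    (hξ : ξ ^ 2 - ξ + 1 = 0) :
    3 * Nat.card {j // a j % 6 = 2} + Nat.card (MulAction.fixedBy X g) = Nat.card X := by
  rw [← card_fixed_toPerm]
  exact three_mul_card_mod_six_eq_two (MulAction.toPerm g) v hv hcard ξ a h
    (toPerm_pow_eq_one g 3 hg) hξ

theorem three_mul_card_mod_six_eq_four_smul (hg : ∀ x : X, g ^ 3 • x = x)
    (hξ : ξ ^ 2 - ξ + 1 = 0) :
    3 * Nat.card {j // a j % 6 = 4} + Nat.card (MulAction.fixedBy X g) = Nat.card X := by
  rw [← card_fixed_toPerm]
  exact three_mul_card_mod_six_eq_four (MulAction.toPerm g) v hv hcard ξ a h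
    (toPerm_pow_eq_one g 3 hg) hξ

end WeightsAction

/-! ### The elements `S` and `S * T` acting on `SL(2, ℤ) ⧸ Gamma0 N` -/

section Gamma0

open CongruenceSubgroup ModularGroup
open scoped MatrixGroups

theorem neg_one_mem_Gamma0 (N : ℕ) : (-1 : SL(2, ℤ)) ∈ Gamma0 N := by
  rw [Gamma0_mem]
  simp

theorem neg_one_smul_coset (N : ℕ) (x : SL(2, ℤ) ⧸ Gamma0 N) : (-1 : SL(2, ℤ)) • x = x := by
  induction x using QuotientGroup.induction_on with
  | H g =>
    rw [MulAction.Quotient.smul_mk, smul_eq_mul, QuotientGroup.eq]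
    have : (-1 * g)⁻¹ * g = -1 := by
      rw [neg_mul, one_mul, inv_neg, neg_mul, inv_mul_cancel]
    rw [this]
    exact neg_one_mem_Gamma0 N

theorem S_sq_eq_neg_one : (S : SL(2, ℤ)) ^ 2 = -1 := by
  apply Subtype.ext
  rw [Matrix.SpecialLinearGroup.coe_pow, pow_two, S_mul_S_eq, Matrix.SpecialLinearGroup.coe_neg,
    Matrix.SpecialLinearGroup.coe_one]

theorem ST_cube_eq_neg_one : (S * T : SL(2, ℤ)) ^ 3 = -1 := by
  apply Subtype.ext
  rw [Matrix.SpecialLinearGroup.coe_pow, Matrix.SpecialLinearGroup.coe_mul, coe_S, coe_T,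
    Matrix.SpecialLinearGroup.coe_neg, Matrix.SpecialLinearGroup.coe_one, pow_succ, pow_two,
    Matrix.mul_fin_two, Matrix.mul_fin_two, Matrix.mul_fin_two, Matrix.one_fin_two]
  ext i j
  fin_cases i <;> fin_cases j <;> simp

theorem S_sq_smul (N : ℕ) (x : SL(2, ℤ) ⧸ Gamma0 N) : S ^ 2 • x = x := by
  rw [S_sq_eq_neg_one, neg_one_smul_coset]

theorem ST_cube_smul (N : ℕ) (x : SL(2, ℤ) ⧸ Gamma0 N) : (S * T) ^ 3 • x = x := by
  rw [ST_cube_eq_neg_one, neg_one_smul_coset]

theorem S_inv_sq_smul (N : ℕ) (x : SL(2, ℤ) ⧸ Gamma0 N) : S⁻¹ ^ 2 • x = x := by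
  rw [inv_pow, inv_smul_eq_iff, S_sq_smul]

theorem ST_inv_cube_smul (N : ℕ) (x : SL(2, ℤ) ⧸ Gamma0 N) : (S * T)⁻¹ ^ 3 • x = x := by
  rw [inv_pow, inv_smul_eq_iff, ST_cube_smul]


theorem toPerm_S_sq (N : ℕ) :
    (MulAction.toPerm S : Equiv.Perm (SL(2, ℤ) ⧸ Gamma0 N)) ^ 2 = 1 :=
  toPerm_pow_eq_one S 2 (S_sq_smul N)

theorem toPerm_S_inv_sq (N : ℕ) :
    (MulAction.toPerm S⁻¹ : Equiv.Perm (SL(2, ℤ) ⧸ Gamma0 N)) ^ 2 = 1 :=
  toPerm_pow_eq_one S⁻¹ 2 (S_inv_sq_smul N)

theorem toPerm_ST_cube (N : ℕ) :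
    (MulAction.toPerm (S * T) : Equiv.Perm (SL(2, ℤ) ⧸ Gamma0 N)) ^ 3 = 1 :=
  toPerm_pow_eq_one (S * T) 3 (ST_cube_smul N)

theorem toPerm_ST_inv_cube (N : ℕ) :
    (MulAction.toPerm (S * T)⁻¹ : Equiv.Perm (SL(2, ℤ) ⧸ Gamma0 N)) ^ 3 = 1 :=
  toPerm_pow_eq_one (S * T)⁻¹ 3 (ST_inv_cube_smul N)

end Gamma0

end Fermat.Agent.S20.H46
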