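/-
S20 package K, part 2 (helper46): elliptic eigen-counts on `SL(2, ℤ) ⧸ Gamma0 N`.

Combines `EigenCount` (eigenvector counting for permutation operators) with helper77's fixed-point
counts `card_fixedBy_S`, `card_fixedBy_ST`.

Input: a family `v : J → (SL(2, ℤ) ⧸ Gamma0 N) → ℂ` of `|X|` linearly independent vectors and
integer "weights" `a j` such that `v j` is an eigenvector of the coset permutation by `g`
(`g = S` or `S⁻¹`, resp. `S * T` or `(S * T)⁻¹`) with eigenvalue `ξ ^ a j`, `ξ` a primitive 4th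
(resp. 6th) root of unity.  Output: the number of `j` in each weight class mod 4 (resp. mod 6)
in terms of `|X|` and `nuTwo N` (resp. `nuThree N`).
-/
import Fermat.Agent.S20.H46.EigenCount
import Fermat.Agent.S20.H77.FixedPoints

namespace Fermat.Agent.S20.H46

open CongruenceSubgroup ModularGroup ModularCurve
open scoped MatrixGroups

section Elliptic

variable (N : ℕ) [NeZero N] {J : Type*} [Finite J] (g : SL(2, ℤ))
  (v : J → (SL(2, ℤ) ⧸ Gamma0 N) → ℂ) (hv : LinearIndependent ℂ v)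
  (hcard : Nat.card J = Nat.card (SL(2, ℤ) ⧸ Gamma0 N)) (ξ : ℂ) (a : J → ℤ)
  (h : ∀ j x, v j (g • x) = ξ ^ a j * v j x)

theorem card_fixedBy_of_S (hg : g = S ∨ g = S⁻¹) :
    Nat.card (MulAction.fixedBy (SL(2, ℤ) ⧸ Gamma0 N) g) = nuTwo N := by
  rcases hg with rfl | rfl
  · exact H77.card_fixedBy_S N
  · rw [card_fixedBy_inv]; exact H77.card_fixedBy_S N

theorem card_fixedBy_of_ST (hg : g = S * T ∨ g = (S * T)⁻¹) :
    Nat.card (MulAction.fixedBy (SL(2, ℤ) ⧸ Gamma0 N) g) = nuThree N := by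
  rcases hg with rfl | rfl
  · exact H77.card_fixedBy_ST N
  · rw [card_fixedBy_inv]; exact H77.card_fixedBy_ST N

omit [NeZero N] in
theorem sq_smul_of_S (hg : g = S ∨ g = S⁻¹) (x : SL(2, ℤ) ⧸ Gamma0 N) : g ^ 2 • x = x := by
  rcases hg with rfl | rfl
  · exact S_sq_smul N x
  · exact S_inv_sq_smul N x

omit [NeZero N] in
theorem cube_smul_of_ST (hg : g = S * T ∨ g = (S * T)⁻¹) (x : SL(2, ℤ) ⧸ Gamma0 N) :
    g ^ 3 • x = x := by
  rcases hg with rfl | rfl
  · exact ST_cube_smul N x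
  · exact ST_inv_cube_smul N x

include hv hcard h

/-- **Elliptic count at `i`, weights `≡ 0 mod 4`.** -/
theorem two_mul_card_four_dvd_S (hg : g = S ∨ g = S⁻¹) (hξ : ξ ^ 2 = -1) :
    2 * Nat.card {j // (4 : ℤ) ∣ a j} = Nat.card (SL(2, ℤ) ⧸ Gamma0 N) + nuTwo N := by
  rw [← card_fixedBy_of_S N g hg]
  exact two_mul_card_four_dvd_smul g v hv hcard ξ a h (sq_smul_of_S N g hg) hξ

/-- **Elliptic count at `i`, weights `≡ 2 mod 4`.** -/
theorem two_mul_card_mod_four_eq_two_S (hg : g = S ∨ g = S⁻¹) (hξ : ξ ^ 2 = -1) :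
    2 * Nat.card {j // a j % 4 = 2} + nuTwo N = Nat.card (SL(2, ℤ) ⧸ Gamma0 N) := by
  rw [← card_fixedBy_of_S N g hg]
  exact two_mul_card_mod_four_eq_two_smul g v hv hcard ξ a h (sq_smul_of_S N g hg) hξ

/-- **Elliptic count at `ρ`, weights `≡ 0 mod 6`.** -/
theorem three_mul_card_six_dvd_ST (hg : g = S * T ∨ g = (S * T)⁻¹) (hξ : ξ ^ 2 - ξ + 1 = 0) :
    3 * Nat.card {j // (6 : ℤ) ∣ a j} = Nat.card (SL(2, ℤ) ⧸ Gamma0 N) + 2 * nuThree N := by
  rw [← card_fixedBy_of_ST N g hg]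
  exact three_mul_card_six_dvd_smul g v hv hcard ξ a h (cube_smul_of_ST N g hg) hξ

/-- **Elliptic count at `ρ`, weights `≡ 2 mod 6`.** -/
theorem three_mul_card_mod_six_eq_two_ST (hg : g = S * T ∨ g = (S * T)⁻¹)
    (hξ : ξ ^ 2 - ξ + 1 = 0) :
    3 * Nat.card {j // a j % 6 = 2} + nuThree N = Nat.card (SL(2, ℤ) ⧸ Gamma0 N) := by
  rw [← card_fixedBy_of_ST N g hg]
  exact three_mul_card_mod_six_eq_two_smul g v hv hcard ξ a h (cube_smul_of_ST N g hg) hξ

/-- **Elliptic count at `ρ`, weights `≡ 4 mod 6`.** -/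
theorem three_mul_card_mod_six_eq_four_ST (hg : g = S * T ∨ g = (S * T)⁻¹)
    (hξ : ξ ^ 2 - ξ + 1 = 0) :
    3 * Nat.card {j // a j % 6 = 4} + nuThree N = Nat.card (SL(2, ℤ) ⧸ Gamma0 N) := by
  rw [← card_fixedBy_of_ST N g hg]
  exact three_mul_card_mod_six_eq_four_smul g v hv hcard ξ a h (cube_smul_of_ST N g hg) hξ

end Elliptic

end Fermat.Agent.S20.H46
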